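/-
GATE-R / S17, node GR-TOP (helper20): the descent step in its CRUDEST sufficient form.

`fg_of_weakMW_of_crudeHeight` : an additive commutative group `G` with
* `G / n G` finite for ONE `n`,
* a Northcott function `h : G → ℝ`,
* (UP)  `h x ≤ a * h (g + x) + c g` for ONE constant `a ≥ 0` (ANY size) and per-translate constants,
* (LOW) `b * h x - c₀ ≤ h (n • x)` for ONE `b > 1` (ANY size),
is finitely generated.  Proof (helper49, board 4500): apply Mathlib's
`AddCommGroup.fg_of_descent` to `n ^ k` with `b ^ k > a`.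
-/
import Mathlib

set_option autoImplicit false

namespace Fermat.Agent.GR.Top.Descent

open Finset

variable {G : Type*} [AddCommGroup G]

/-- `n ^ (k+1) G` is the image of `n ^ k G` under multiplication by `n`. -/
theorem range_nsmul_pow_succ (n k : ℕ) :
    (nsmulAddMonoidHom (α := G) (n ^ (k + 1))).range =
      (nsmulAddMonoidHom (α := G) (n ^ k)).range.map (nsmulAddMonoidHom (α := G) n) := by
  ext y
  constructor
  · rintro ⟨x, rfl⟩
    refine ⟨n ^ k • x, ⟨x, rfl⟩, ?_⟩
    show n • (n ^ k • x) = n ^ (k + 1) • x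
    rw [pow_succ, mul_nsmul]
  · rintro ⟨z, ⟨x, rfl⟩, rfl⟩
    refine ⟨x, ?_⟩
    show n ^ (k + 1) • x = n • (n ^ k • x)
    rw [pow_succ, mul_nsmul]

/-- `G / n G` finite ⟹ `G / n ^ k G` finite. -/
theorem finiteIndex_range_nsmul_pow {n : ℕ}
    (h : (nsmulAddMonoidHom (α := G) n).range.FiniteIndex) (k : ℕ) :
    (nsmulAddMonoidHom (α := G) (n ^ k)).range.FiniteIndex := by
  induction k with
  | zero =>
    have : (nsmulAddMonoidHom (α := G) (n ^ 0)).range = ⊤ := by
      rw [AddMonoidHom.range_eq_top]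
      intro x
      exact ⟨x, by simp⟩
    rw [this]
    infer_instance
  | succ k ih =>
    rw [range_nsmul_pow_succ]
    refine ⟨?_⟩
    rw [AddSubgroup.index_map]
    refine mul_ne_zero ?_ h.index_ne_zero
    have hle : (nsmulAddMonoidHom (α := G) (n ^ k)).range ≤
        (nsmulAddMonoidHom (α := G) (n ^ k)).range ⊔ (nsmulAddMonoidHom (α := G) n).ker :=
      le_sup_left
    exact (AddSubgroup.finiteIndex_of_le hle).index_ne_zero

/-- iterate of the lower bound. -/
theorem nsmul_pow_lower {h : G → ℝ} {n : ℕ} {b c₀ : ℝ} (hb : 0 ≤ b)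
    (H : ∀ x, b * h x - c₀ ≤ h (n • x)) (k : ℕ) (x : G) :
    b ^ k * h x - c₀ * ∑ i ∈ range k, b ^ i ≤ h (n ^ k • x) := by
  induction k generalizing x with
  | zero => simp
  | succ k ih =>
    have h1 := ih (n • x)
    have h2 := H x
    have h3 : n ^ (k + 1) • x = n ^ k • (n • x) := by rw [pow_succ, mul_nsmul']
    rw [h3]
    have h4 : b ^ k * (b * h x - c₀) ≤ b ^ k * h (n • x) :=
      mul_le_mul_of_nonneg_left h2 (pow_nonneg hb k)
    have h5 : b ^ k * (b * h x - c₀) = b ^ (k + 1) * h x - c₀ * b ^ k := by ring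
    rw [Finset.sum_range_succ, mul_add]
    linarith

/-- **GATE-R TOP (abstract)**: weak Mordell–Weil for one `n` + a Northcott height with a crude
translation bound and a crude growth bound under multiplication by `n` ⟹ finitely generated. -/
theorem fg_of_weakMW_of_crudeHeight {n : ℕ} {h : G → ℝ} {a b c₀ : ℝ} {c : G → ℝ}
    (ha : 0 ≤ a) (hb : 1 < b)
    (H₁ : (nsmulAddMonoidHom (α := G) n).range.FiniteIndex)
    (H₂ : ∀ g x, h x ≤ a * h (g + x) + c g) (H₃ : ∀ x, b * h x - c₀ ≤ h (n • x))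
    [Northcott h] : AddGroup.FG G := by
  obtain ⟨k, hk⟩ := pow_unbounded_of_one_lt a hb
  exact AddCommGroup.fg_of_descent (n := n ^ k) (a := a) (b := b ^ k)
    (c₀ := c₀ * ∑ i ∈ range k, b ^ i) (c := c) ha hk (finiteIndex_range_nsmul_pow H₁ k) H₂
    (fun x => nsmul_pow_lower (by linarith) H₃ k x)

end Fermat.Agent.GR.Top.Descent
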