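/-
GATE-R / S17, node GR-TOP (helper20): the frozen S17 statement from the two layer-1 nodes
`[R-W]` (weak Mordell–Weil for ONE `n`) and `[R-H]` (a Northcott height with crude bounds).
-/
import Fermat.Prelude.Def_ModularCurve_ArithmeticGalois
import Mathlib.Algebra.Ring.Action.Submonoid
import Fermat.Agent.GR.Top.Descent

set_option autoImplicit false
open ModularCurve AlgebraicCurve

namespace Fermat.Agent.GR.Top.S17Top

/-- The Mordell–Weil group `J₀(N)(ℚ)` of the frozen S17 statement. -/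
noncomputable abbrev MW (N : ℕ) : AddSubgroup (JZero N) :=
  FixedPoints.addSubgroup ((AlgebraicClosure ℚ) ≃ₐ[ℚ] (AlgebraicClosure ℚ)) (JZero N)

/-- `[R-W]`: weak Mordell–Weil for the integer `n`. -/
def WeakMW (N n : ℕ) : Prop :=
  (nsmulAddMonoidHom (α := ↥(MW N)) n).range.FiniteIndex

/-- `[R-H]`: a Northcott height on `J₀(N)(ℚ)` with a crude translation bound and a crude growth
bound under multiplication by `n`. -/
def CrudeHeight (N n : ℕ) : Prop :=
  ∃ h : ↥(MW N) → ℝ, Northcott h ∧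
    (∃ a : ℝ, 0 ≤ a ∧ ∃ c : ↥(MW N) → ℝ, ∀ g x, h x ≤ a * h (g + x) + c g) ∧
    ∃ b : ℝ, 1 < b ∧ ∃ c₀ : ℝ, ∀ x, b * h x - c₀ ≤ h (n • x)

/-- **frozen S17 from the two layer-1 nodes** (conclusion = the frozen statement verbatim). -/
theorem s17_of_nodes (N : ℕ) [NeZero N] (n : ℕ) (hW : WeakMW N n) (hH : CrudeHeight N n) :
    AddGroup.FG ↥(FixedPoints.addSubgroup ((AlgebraicClosure ℚ) ≃ₐ[ℚ] (AlgebraicClosure ℚ))
      (JZero N)) := by
  obtain ⟨h, hN, ⟨a, ha, c, hUP⟩, b, hb, c₀, hLOW⟩ := hH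
  have := hN
  exact Descent.fg_of_weakMW_of_crudeHeight ha hb hW hUP hLOW

end Fermat.Agent.GR.Top.S17Top
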